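import Fermat.Agent.CAR.TH1.Defs
import Fermat.Agent.TOR.T1C.XDat
import Fermat.Agent.TOR.GB.W
import Fermat.Agent.CAR.CNT.NumM

/-!
# CAR / TH1 : the formal properties of the modular unit `X = G'(τ)/G'(qτ)`  (no sorry).

* `XU_monic` : `X = Q^{-(q-1) m} (1 + …) ∈ ℤ((Q))`, `m = mX M`;
* `order_XR`, `XR_ne_zero`;
* `XF_hasRed`, `rd_XF` : `X` is Gauss-integral at every `A` and reduces to `H = XR (kA A) M q`;
* `galS_XR`, `galF_XF` : `X` is `ℚ`-rational;
* `qExpand_XR` : `V H = H ^ q` in characteristic `q`.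
-/

set_option autoImplicit false

open ModularCurve AlgebraicCurve Polynomial

noncomputable section

namespace Fermat.Agent.CAR.TH1

open Fermat.Agent.GR Fermat.Agent.GAL Fermat.Agent.GAL.KL Fermat.Agent.GAL.KLC Fermat.Agent.S24
open Fermat.Agent.TOR

theorem dU_monic {d₁ d₂ : ℕ} (h₁ : d₁ ≠ 0) (h₂ : d₂ ≠ 0) :
    XSeries_Monic ((d₂ : ℤ) - d₁) (dU d₁ d₂ : LaurentSeries ℤ) := by
  have h := (XSeries_uU h₂).mul (XSeries_uU h₁).inv
  have e : ((d₂ : ℤ) - 1) + -((d₁ : ℤ) - 1) = (d₂ : ℤ) - d₁ := by ring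
  rw [e] at h
  exact h

/-- `X = Q^{-(q-1) m} (1 + …)`. -/
theorem XU_monic (M q : ℕ) [NeZero M] [NeZero q] :
    XSeries_Monic (-(((q : ℤ) - 1) * (mX M : ℤ))) (XU M q : LaurentSeries ℤ) := by
  have h : XSeries_Monic (∑ T ∈ M.primeFactors.powerset,
      S28.E4.expT M T * (((q * S28.E4.dT M T : ℕ) : ℤ) - (S28.E4.dT M T : ℤ)))
      (XU M q : LaurentSeries ℤ) := by
    unfold XU
    rw [Units.coe_prod]
    exact XSeries_Monic.prod _ _ _ fun T hT =>
      (dU_monic (XSeries_dT_ne_zero M hT)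
        (mul_ne_zero (NeZero.ne q) (XSeries_dT_ne_zero M hT))).zpow _
  have e : ∑ T ∈ M.primeFactors.powerset,
      S28.E4.expT M T * (((q * S28.E4.dT M T : ℕ) : ℤ) - (S28.E4.dT M T : ℤ))
      = -(((q : ℤ) - 1) * (mX M : ℤ)) := by
    rw [← mul_neg, XSeries_mX, Finset.mul_sum]
    refine Finset.sum_congr rfl fun T _ => ?_
    push_cast
    ring
  rw [e] at h
  exact h

theorem order_XR (R : Type*) [CommRing R] [Nontrivial R] (M q : ℕ) [NeZero M] [NeZero q] :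
    (XR R M q).order = -(((q : ℤ) - 1) * (mX M : ℤ)) :=
  order_of_eq _ _ (XU_monic M q)

theorem XR_ne_zero (R : Type*) [CommRing R] [IsDomain R] (M q : ℕ) [NeZero M] [NeZero q] :
    XR R M q ≠ 0 :=
  T1C.coeffMap_int_ne_zero _ _ (XU_monic M q)

theorem XF_ne_zero (M q : ℕ) [NeZero M] [NeZero q] : XF M q ≠ 0 := fun h =>
  XR_ne_zero Qb M q (by rw [← coe_XF, h]; rfl)

/-- `m = e₀ ψ(M)`  (`= CNT.mX_eq`). -/
theorem mX_eq (M : ℕ) [NeZero M] : mX M = e0 M * dedekindPsi M := CNT.mX_eq M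

/-- `X` is Gauss-integral at every `A`, with reduction `H = XR (kA A) M q`. -/
theorem rd_XF (A : ValuationSubring Qb) (M q : ℕ) [NeZero M] [NeZero q] :
    T1.Rd (rho A (M * q)) (XF M q) (XR (kA A) M q) :=
  rho_int A (M * q) (XU M q : LaurentSeries ℤ) (XR_mem M q)

theorem XF_hasRed (A : ValuationSubring Qb) (M q : ℕ) [NeZero M] [NeZero q] :
    HasRed A ((XF M q : FN (M * q)) : LaurentSeries Qb) (XR (kA A) M q) :=
  (T1C.rd_iff (M * q) A).1 (rd_XF A M q)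

/-- `X` has rational coefficients. -/
theorem galS_XR (σ : GQ) (M q : ℕ) : galS σ (XR Qb M q) = XR Qb M q := by
  unfold galS XR
  rw [coeffMap_coeffMap]
  have h : ((σ : Qb →+* Qb)).comp (Int.castRingHom Qb) = Int.castRingHom Qb := RingHom.ext_int _ _
  rw [h]

theorem galF_XF (σ : GQ) (M q : ℕ) [NeZero M] [NeZero q] :
    GB.galF (M * q) σ (XF M q) = XF M q :=
  Subtype.ext (galS_XR σ M q)

/-- the coefficients of `H` lie in the prime field: `V H = H ^ q`. -/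
theorem qExpand_XR {k : Type*} [Field k] (M q : ℕ) [NeZero q] [ExpChar k q] :
    qExpand k q (XR k M q) = XR k M q ^ q :=
  T1C.qExpand_coeffMap_int q _

end Fermat.Agent.CAR.TH1
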