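import Fermat.Agent.GAL.KLC.XF
import Fermat.Agent.TOR.T1C.Lvl

/-!
# CAR / TH1 : the modular unit `X = G'(τ)/G'(qτ)` of level `M q`.  Definitions (no sorry).

`G' = Δ^{e₀}/h = ∏_T Δ(d_T τ)^{-exp_T}` is the eta product of weight `12 e₀` and level `M` all of whose zeros are at
`∞` (`x = h j^{e₀} = E₄^{3 e₀}/G'` is the KLC function `xF M`).
`X := G'(τ)/G'(qτ) = ∏_T (Δ(Q^{q d_T})/Δ(Q^{d_T}))^{exp_T} ∈ ℤ((Q))ˣ`.

* `dU d₁ d₂ = Δ(Q^{d₂})/Δ(Q^{d₁})`, `dF N d₁ d₂` the same as an element of `FN N` (`d₁, d₂ ∣ N`);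
* `XU M q`, `XR R M q` (coefficients in `R`), `XF M q : FN (M * q)`.
-/

set_option autoImplicit false

open ModularCurve AlgebraicCurve Polynomial

noncomputable section

namespace Fermat.Agent.CAR.TH1

open Fermat.Agent.GR Fermat.Agent.GAL Fermat.Agent.GAL.KL Fermat.Agent.GAL.KLC Fermat.Agent.S24

/-- `Δ(Q^{d₂}) / Δ(Q^{d₁})` as a unit of `ℤ((Q))`. -/
def dU (d₁ d₂ : ℕ) : (LaurentSeries ℤ)ˣ := uU d₂ * (uU d₁)⁻¹

/-- base change of a unit of `ℤ((Q))`. -/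
def uR (R : Type*) [CommRing R] (y : (LaurentSeries ℤ)ˣ) : (LaurentSeries R)ˣ :=
  Units.map (coeffMap (Int.castRingHom R) : LaurentSeries ℤ →* LaurentSeries R) y

theorem coe_uR (R : Type*) [CommRing R] (y : (LaurentSeries ℤ)ˣ) :
    ((uR R y : (LaurentSeries R)ˣ) : LaurentSeries R)
      = coeffMap (Int.castRingHom R) (y : LaurentSeries ℤ) := rfl

theorem uR_mul (R : Type*) [CommRing R] (y z : (LaurentSeries ℤ)ˣ) :
    uR R (y * z) = uR R y * uR R z := map_mul _ _ _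

theorem uR_inv (R : Type*) [CommRing R] (y : (LaurentSeries ℤ)ˣ) : uR R y⁻¹ = (uR R y)⁻¹ :=
  map_inv _ _

theorem uR_zpow (R : Type*) [CommRing R] (y : (LaurentSeries ℤ)ˣ) (n : ℤ) :
    uR R (y ^ n) = uR R y ^ n := map_zpow _ _ _

theorem uR_prod (R : Type*) [CommRing R] {ι : Type*} (s : Finset ι) (y : ι → (LaurentSeries ℤ)ˣ) :
    uR R (∏ i ∈ s, y i) = ∏ i ∈ s, uR R (y i) := map_prod _ _ _

/-- `u_d ∈ FL ℚ̄ N` for `d ∣ N`. -/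
theorem uU_mem (N d : ℕ) [NeZero N] (hd : d ∣ N) :
    ((uR Qb (uU d) : (LaurentSeries Qb)ˣ) : LaurentSeries Qb) ∈ FL Qb N := by
  rw [coe_uR, xMem_coeffMap_int]
  apply coeffEmb_mem_laurentBaseChange
  rw [xMem_coeffMap_uU]
  exact ud_mem_full N d hd

theorem dU_mem (N d₁ d₂ : ℕ) [NeZero N] (h₁ : d₁ ∣ N) (h₂ : d₂ ∣ N) :
    ((uR Qb (dU d₁ d₂) : (LaurentSeries Qb)ˣ) : LaurentSeries Qb) ∈ FL Qb N := by
  unfold dU
  rw [uR_mul, uR_inv, Units.val_mul, Units.val_inv_eq_inv_val]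
  exact mul_mem (uU_mem N d₂ h₂) (inv_mem (uU_mem N d₁ h₁))

/-- `Δ(Q^{d₂}) / Δ(Q^{d₁})` as an element of `FN N`. -/
def dF (N d₁ d₂ : ℕ) [NeZero N] (h₁ : d₁ ∣ N) (h₂ : d₂ ∣ N) : FN N :=
  ⟨((uR Qb (dU d₁ d₂) : (LaurentSeries Qb)ˣ) : LaurentSeries Qb), dU_mem N d₁ d₂ h₁ h₂⟩

/-- **the modular unit** `X = G'(τ)/G'(qτ) = ∏_T (Δ(Q^{q d_T})/Δ(Q^{d_T}))^{exp_T}`. -/
def XU (M q : ℕ) : (LaurentSeries ℤ)ˣ :=
  ∏ T ∈ M.primeFactors.powerset, dU (S28.E4.dT M T) (q * S28.E4.dT M T) ^ S28.E4.expT M T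

/-- `X` with coefficients in `R`. -/
def XR (R : Type*) [CommRing R] (M q : ℕ) : LaurentSeries R :=
  coeffMap (Int.castRingHom R) (XU M q : LaurentSeries ℤ)

theorem XR_mem (M q : ℕ) [NeZero M] [NeZero q] : XR Qb M q ∈ FL Qb (M * q) := by
  have h1 : XR Qb M q = ((uR Qb (XU M q) : (LaurentSeries Qb)ˣ) : LaurentSeries Qb) := rfl
  rw [h1]
  unfold XU
  rw [uR_prod, Units.coe_prod]
  apply prod_mem
  intro T hT
  rw [uR_zpow, Units.val_zpow_eq_zpow_val]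
  apply zpow_mem
  have hd := S28.E4.dT_dvd M hT
  exact dU_mem (M * q) _ _ (hd.mul_right q) (by rw [mul_comm M q]; exact mul_dvd_mul_left q hd)

/-- `X` as an element of the function field of level `M q`. -/
def XF (M q : ℕ) [NeZero M] [NeZero q] : FN (M * q) := ⟨XR Qb M q, XR_mem M q⟩

theorem coe_XF (M q : ℕ) [NeZero M] [NeZero q] : ((XF M q : FN (M * q)) : LaurentSeries Qb) = XR Qb M q :=
  rfl

/-- `R(y) = y⁴ (y - 1728)³`   (`(θ j)⁶ = R(j) Δ`). -/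
def RJ {F : Type*} [CommRing F] (y : F) : F := y ^ 4 * (y - 1728) ^ 3

end Fermat.Agent.CAR.TH1
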